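import Fermat.Agent.FF19.NSA.Interface

/-!
# FF19 / NSA : assembly of NS-ARITH from its packages (helper28)
-/

set_option autoImplicit false

noncomputable section

namespace Fermat.Agent.FF19.NSA

open Polynomial IntermediateField AlgebraicCurve
open Fermat.Agent.INJ

theorem Asm_finiteDimensional {K F k Fb : Type} [Field K] [Field F] [Algebra K F] [Field k] [Field Fb]
    [Algebra k Fb] (D : RedData K F k Fb) (t : F) (hC : Chart D t) :
    FiniteDimensional k⟮D.rd t⟯ Fb := by
  have h := (INJ.all_Trace K F k Fb D t hC).1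
  have hpos : 0 < Module.finrank K⟮t⟯ F := by
    haveI := hC.fin
    exact Module.finrank_pos
  rw [← h] at hpos
  exact Module.finite_of_finrank_pos hpos

/-- **NS-ARITH** from its packages. -/
theorem nsArith_of (hLift : Stmt_Lift) (hDim : Stmt_DimLe) (hGen : Stmt_Generic)
    (hKI : Stmt_KapInt) (hKD : Stmt_KapDict) : Stmt_NSArith := by
  intro K F k Fb _ _ _ _ _ _ _ _ D t hC hC' hB hB' T hT
  obtain ⟨m₀, hL⟩ := hLift K F k Fb D t hC hC' hB hB'
  have htr : Transcendental K t := (INJ.stmt_Gauss K F k Fb D t hC.t_mem hC.trans).2.2.2.1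
  obtain ⟨hfin, m₁, hG⟩ := hGen K F t htr hC.fin
  have hτ0 : D.rd t ≠ 0 := fun h => hC.trans (h ▸ isAlgebraic_zero)
  have hinv : D.rd t⁻¹ = (D.rd t)⁻¹ := RedData.rd_inv hτ0
  have hI := hKI k Fb (D.rd t) hC.trans (Asm_finiteDimensional D t hC) hC.sep
  have hI' := hKI k Fb (D.rd t⁻¹) hC'.trans (Asm_finiteDimensional D t⁻¹ hC') hC'.sep
  rw [hinv] at hI'
  have hdict := hKD k Fb (D.rd t) hτ0 hI hI' T hT
  refine ⟨max m₀ m₁, fun m hm => ?_⟩
  obtain ⟨hf, hle⟩ := hDim K F k Fb D (LInt K t m) (LInt k (D.rd t) m) (hfin m)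
    (hL m (le_trans (le_max_left _ _) hm))
  have hG' := hG m (le_trans (le_max_right _ _) hm)
  haveI := hf
  refine ⟨Submodule.finiteDimensional_of_le (hdict m), ?_⟩
  have h1 : Module.finrank k (riemannRochSpace (m • T)) ≤ Module.finrank k (LInt k (D.rd t) m) :=
    Submodule.finrank_mono (hdict m)
  have h2 : (Module.finrank k (riemannRochSpace (m • T)) : ℤ) ≤ Module.finrank K (LInt K t m) := by
    exact_mod_cast h1.trans hle
  exact h2.trans hG'

end Fermat.Agent.FF19.NSA

end
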