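import Fermat.Agent.FF19.NSA.Interface
import Fermat.Agent.FF19.NS.Defs

/-!
# FF19 / NSA : the output of NS-ARITH in the shape consumed by NS-ABS (`NS.UB`)  (helper28)
-/

set_option autoImplicit false

noncomputable section

namespace Fermat.Agent.FF19.NSA

open Polynomial IntermediateField AlgebraicCurve
open Fermat.Agent.INJ

/-- the output in helper45's shape. -/
def Stmt_UB : Prop :=
  ∀ (K F k Fb : Type) [Field K] [Field F] [Algebra K F] [Field k] [Field Fb] [Algebra k Fb]
    [IsAlgClosed K] [CharZero K] (D : RedData K F k Fb) (t : F),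
    Chart D t → Chart D t⁻¹ → Branch D t → Branch D t⁻¹ →
    ∃ m₀ : ℕ, ∀ m : ℕ, m₀ ≤ m → NS.UB k (D.rd t) (Module.finrank K⟮t⟯ F) (genusFF K F) m

theorem ub_of (hLift : Stmt_Lift) (hDim : Stmt_DimLe) (hGen : Stmt_Generic) : Stmt_UB := by
  intro K F k Fb _ _ _ _ _ _ _ _ D t hC hC' hB hB'
  obtain ⟨m₀, hL⟩ := hLift K F k Fb D t hC hC' hB hB'
  have htr : Transcendental K t := (INJ.stmt_Gauss K F k Fb D t hC.t_mem hC.trans).2.2.2.1
  obtain ⟨hfin, m₁, hG⟩ := hGen K F t htr hC.fin
  refine ⟨max m₀ m₁, fun m hm r w hw hli => ?_⟩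
  obtain ⟨hf, hle⟩ := hDim K F k Fb D (LInt K t m) (LInt k (D.rd t) m) (hfin m)
    (hL m (le_trans (le_max_left _ _) hm))
  have hG' := hG m (le_trans (le_max_right _ _) hm)
  have := hf
  -- the family `w` lives in `LInt k tbar m`
  let w' : Fin r → LInt k (D.rd t) m := fun i => ⟨w i, hw i⟩
  have hli' : LinearIndependent k w' := by
    apply LinearIndependent.of_comp (LInt k (D.rd t) m).subtype
    exact hli
  have h1 : r ≤ Module.finrank k (LInt k (D.rd t) m) := by
    simpa using hli'.fintype_card_le_finrank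
  have h2 : (r : ℤ) ≤ Module.finrank K (LInt K t m) := by exact_mod_cast h1.trans hle
  have h3 : (r : ℤ) + genusFF K F ≤ m * Module.finrank K⟮t⟯ F + 1 := by linarith
  exact_mod_cast h3

end Fermat.Agent.FF19.NSA

end
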