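import Fermat.Agent.INJ.All
import Fermat.Agent.S27.RD
import Fermat.Agent.S27.RC
import Fermat.Agent.MR.Node.PlaceFactsAbs

/-!
# FF19 / NSA : block NS-ARITH (architect helper28)

**Output** (`Stmt_NSArith`).  `D : INJ.RedData K F k κ` (`K` algebraically closed of characteristic `0`), `t : F` such
that `t` and `t⁻¹` are good coordinates (`INJ.Chart`, `INJ.Branch`; for `F = FF (N r)` this is `RED.all_AUX`).
`T` = pole divisor of `tbar = D.rd t` on `κ / k`, `n = [F : K(t)]` (`= [κ : k(tbar)]` by `INJ.all_Trace`),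
`g = genusFF K F` (the genus of the GENERIC fibre).  Then for all large `m`

      `dim_k Lbar(m T) ≤ m n + 1 - g`.

This is the only arithmetic input of NS-ABS (helper45): "the genus does not drop".

**Proof.**  EVERYTHING OVER `(K, A)`; no inertia, no discrete valuation ring, no `H¹`, no adeles on `κ`.
`LInt K t m = {y : y integral over K[t], y t⁻ᵐ integral over K[t⁻¹]}` (`= L(m (t)_∞)`).
* `PoleBound` : `x` integral over `K[t]` ⟹ `x t⁻ʳ` integral over `K[t⁻¹]` for `r` large.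
* `Cech` : `BB = {z ∈ O integral over K[t]} = ⊕ A[t] b_i` (`INJ.all_BBasis`, `all_Ortho`, `stmt_Gauss`), and
  `b_i t⁻ʳ ∈ BB'` for `r ≥ m₀`; so every `c ∈ O` integral over `K[t, t⁻¹]` is `c₁ + tᵐ c₂`, `c₁ ∈ BB`, `c₂ ∈ BB'`
  (`m ≥ m₀`): split the Laurent polynomials `t⁻ᵃ q_i(t)`, `q_i ∈ A[t]`, into non-negative and negative powers.
* `Lift` : `ybar ∈ LInt k tbar m` lifts to `LInt K t m ∩ O`: `b ∈ BB` lifts `ybar`, `b' ∈ BB'` lifts
  `ybar tbar⁻ᵐ` (`INJ.all_Normal` for BOTH charts), `b - tᵐ b' = π c₀`, `π ∈ m_A`, `c₀ ∈ Oˣ` (`D.unram`),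
  `c₀ = c₁ + tᵐ c₂` (`Cech`), `y = b - π c₁ = tᵐ (b' + π c₂)`.
* `Indep` : lifts of `k`-independent elements are `K`-independent.  `DimLe` : `dim_k LInt k tbar m ≤ dim_K LInt K t m`.
* `Generic` : `LInt K t m ⊆ L(m B)`, `B` the pole divisor of `t`, `deg B = n`; Riemann-Roch for large degree (S27).
* `KapInt`, `KapDict` : `Lbar(m T) ⊆ LInt k tbar m` (regular at all places where `tbar` is ⟹ integral).

Every `Stmt_X` is one work package: prove `theorem stmt_X : (deps →) Stmt_X` in `Fermat/Agent/FF19/NSA/X.lean`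
(import this file; helper lemmas prefixed `X_`).  NEVER edit a file outside `Fermat/Agent/FF19/NSA`.
-/

set_option autoImplicit false

noncomputable section

namespace Fermat.Agent.FF19.NSA

open Polynomial IntermediateField AlgebraicCurve
open Fermat.Agent.INJ

/-- constants are integral over `K[t]`. -/
theorem isInt_const (K : Type) {F : Type} [Field K] [Field F] [Algebra K F] (t : F) (c : K) :
    IsInt K t (algebraMap K F c) := by
  have h : algebraMap K F c = algebraMap (Algebra.adjoin K {t}) F (algebraMap K _ c) := rfl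
  rw [IsInt, h]
  exact isIntegral_algebraMap

/-- `L(m (t)_∞)` in terms of integral closures: `y` integral over `K[t]`, `y t⁻ᵐ` integral over `K[t⁻¹]`. -/
def LInt (K : Type) {F : Type} [Field K] [Field F] [Algebra K F] (t : F) (m : ℕ) : Submodule K F where
  carrier := {y | IsInt K t y ∧ IsInt K t⁻¹ (y * t⁻¹ ^ m)}
  zero_mem' := ⟨isIntegral_zero, by rw [zero_mul]; exact isIntegral_zero⟩
  add_mem' := by
    rintro x y ⟨hx, hx'⟩ ⟨hy, hy'⟩
    exact ⟨IsIntegral.add hx hy, by rw [add_mul]; exact IsIntegral.add hx' hy'⟩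
  smul_mem' := by
    rintro c x ⟨hx, hx'⟩
    refine ⟨?_, ?_⟩
    · rw [Algebra.smul_def]; exact IsIntegral.mul (isInt_const K t c) hx
    · rw [Algebra.smul_def, mul_assoc]; exact IsIntegral.mul (isInt_const K t⁻¹ c) hx'

theorem mem_LInt {K F : Type} [Field K] [Field F] [Algebra K F] {t : F} {m : ℕ} {y : F} :
    y ∈ LInt K t m ↔ IsInt K t y ∧ IsInt K t⁻¹ (y * t⁻¹ ^ m) := Iff.rfl

/-- **NSA-1** (pure algebra, any field).  `x` integral over `K[t]` ⟹ `x t⁻ʳ` integral over `K[t⁻¹]`, `r` large.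
[`xⁿ + a_{n-1} xⁿ⁻¹ + … + a₀ = 0`, `a_j = p_j(t)`, `r ≥ deg p_j` for all `j`.  `z = x t⁻ʳ'` satisfies
`zⁿ + (a_{n-1} t⁻ʳ') zⁿ⁻¹ + … + a₀ t⁻ʳ'ⁿ = 0` and `a_j t^(-r'(n-j)) ∈ K[t⁻¹]`.  (`Polynomial.scaleRoots` over
`Algebra.adjoin K {t, t⁻¹}` + lifting the coefficients; OR valuation subrings:
`z` is integral over `R` iff it lies in all valuation subrings containing `R`
(`Subring.iInf_valuationSubring_superset` / `Algebra.integralClosure…`): if `t ∈ V` then `t` is a unit of `V` and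
`x ∈ V`; if `t ∉ V` then `v(x) ≤ v(t)^r` by the equation.)] -/
def Stmt_PoleBound : Prop :=
  ∀ (K F : Type) [Field K] [Field F] [Algebra K F] (t x : F), t ≠ 0 → IsInt K t x →
    ∃ r : ℕ, ∀ r' : ℕ, r ≤ r' → IsInt K t⁻¹ (x * t⁻¹ ^ r')

/-- **NSA-2** (Čech `H¹(O(m)) = 0` over `A`).
[`b` from `INJ.all_BBasis`; `m₀ = max r_i`, `r_i` from NSA-1 for `b i`.  `x = t^a c ∈ O` is integral over `K[t]`:
`x = ∑ p_i(t) b_i`; `INJ.all_Ortho`: `p_i(t) ∈ O`; `INJ.stmt_Gauss` (2nd clause): `p_i = Q_i.map A.subtype`.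
`c₁ = ∑_i ∑_{j ≥ a} q_ij t^(j-a) b_i`,  `c₂ = ∑_i ∑_{j < a} q_ij (b_i t⁻¹^(a-j+m))`.
`t⁻¹ ∈ O` by `RedData.inv_mem_of_rd_ne_zero` (`rd t` is transcendental, so `≠ 0`).] -/
def Stmt_Cech : Prop :=
  ∀ (K F k Fb : Type) [Field K] [Field F] [Algebra K F] [Field k] [Field Fb] [Algebra k Fb]
    [IsAlgClosed K] [CharZero K] (D : RedData K F k Fb) (t : F), Chart D t →
    ∃ m₀ : ℕ, ∀ m : ℕ, m₀ ≤ m → ∀ c ∈ D.O, ∀ a : ℕ, IsInt K t (t ^ a * c) →
      ∃ c₁ c₂ : F, c₁ ∈ D.O ∧ IsInt K t c₁ ∧ c₂ ∈ D.O ∧ IsInt K t⁻¹ c₂ ∧ c = c₁ + t ^ m * c₂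

/-- **NSA-3** (lifting sections).  [See the header.  `D.rd t⁻¹ = (D.rd t)⁻¹` is `RedData.rd_inv`.  `c₀ = a (b - tᵐ b')`
satisfies `IsInt K t (t^r c₀)` for `r` from NSA-1 applied to `(t⁻¹, b')` (`(t⁻¹)⁻¹ = t`).  Case `b - tᵐ b' = 0`: `y = b`.] -/
def Stmt_Lift : Prop :=
  ∀ (K F k Fb : Type) [Field K] [Field F] [Algebra K F] [Field k] [Field Fb] [Algebra k Fb]
    [IsAlgClosed K] [CharZero K] (D : RedData K F k Fb) (t : F),
    Chart D t → Chart D t⁻¹ → Branch D t → Branch D t⁻¹ →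
    ∃ m₀ : ℕ, ∀ m : ℕ, m₀ ≤ m → ∀ yb ∈ LInt k (D.rd t) m, ∃ y ∈ LInt K t m, y ∈ D.O ∧ D.rd y = yb

/-- **NSA-4** (independence lifts).  [A relation `∑ a_i y_i = 0`, not all `a_i = 0`: divide by an `a_j` with
`a_i / a_j ∈ A` for all `i` (valuation ring, finite family: induction or `Finset.exists_max_image` on
`D.A.valuation (a i)`); reduce: `∑ ra(a_i/a_j) rd(y_i) = 0` with coefficient `1` at `j`
(`RedData.rd_sum`, `rd_mul`, `rd_algebraMap`).] -/
def Stmt_Indep : Prop :=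
  ∀ (K F k Fb : Type) [Field K] [Field F] [Algebra K F] [Field k] [Field Fb] [Algebra k Fb]
    (D : RedData K F k Fb) (ι : Type) [Fintype ι] (y : ι → F), (∀ i, y i ∈ D.O) →
    LinearIndependent k (fun i => D.rd (y i)) → LinearIndependent K y

/-- **NSA-5** (dimension).  [`rank_le` : every finite `k`-independent family in `Vb` has at most `finrank K V` elements
(lift it, NSA-4, `LinearIndependent.fintype_card_le_finrank` in `V`); then `Module.Finite` from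
`Module.rank_lt_aleph0_iff` and `finrank ≤`.] -/
def Stmt_DimLe : Prop :=
  ∀ (K F k Fb : Type) [Field K] [Field F] [Algebra K F] [Field k] [Field Fb] [Algebra k Fb]
    (D : RedData K F k Fb) (V : Submodule K F) (Vb : Submodule k Fb), Module.Finite K V →
    (∀ yb ∈ Vb, ∃ y ∈ V, y ∈ D.O ∧ D.rd y = yb) →
    Module.Finite k Vb ∧ Module.finrank k Vb ≤ Module.finrank K V

/-- **NSA-6** (generic fibre: Riemann-Roch for large degree).
[`IsFF K F := ⟨t, ht, hfin⟩`.  `S27.r0`, `ra`, `rb`, `rc`, `rd` (see `S27/Assembly.lean` l.58-60 for the incantation).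
`B` from `S27.RC.exists_poleDivisor`: `0 ≤ B v`, `-B v ≤ v.ord t`, `deg B = n`.  `LInt K t m ≤ riemannRochSpace (m • B)`:
`MR.Node.placeFacts K F t` and `… t⁻¹` (field `reg`): if `t ∈ v` then `y ∈ v`; if `t ∉ v` then `t⁻¹ ∈ v`,
`y t⁻ᵐ ∈ v`, `ord y ≥ m ord t ≥ - m B v`.  `finrank L(m B) - finrank H¹(m B) = m n + 1 - g` and `H¹(m B) = 0` for `m n ≥ c`.] -/
def Stmt_Generic : Prop :=
  ∀ (K F : Type) [Field K] [Field F] [Algebra K F] [IsAlgClosed K] [CharZero K] (t : F),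
    Transcendental K t → FiniteDimensional K⟮t⟯ F →
    (∀ m : ℕ, Module.Finite K (LInt K t m)) ∧
    ∃ m₁ : ℕ, ∀ m : ℕ, m₁ ≤ m →
      (Module.finrank K (LInt K t m) : ℤ) ≤ m * Module.finrank K⟮t⟯ F + 1 - genusFF K F

/-- **NSA-7** (any characteristic).  Regular at all places where `τ` is regular ⟹ integral over `k[τ]`.
[Copy `MR/PL/L2Int.lean` (`PL.l2Int`) with `S24.intRing_isDedekindDomain` replaced by its separable version:
`IsIntegralClosure.isDedekindDomain (polyRing k τ) k⟮τ⟯ κ (intRing k τ)` needs `Algebra.IsSeparable k⟮τ⟯ κ`, see the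
proof of `S24.intRing_isDedekindDomain` in `S24/FundId.lean` l.179.  OR: `Subring.iInf_valuationSubring_superset`.] -/
def Stmt_KapInt : Prop :=
  ∀ (k κ : Type) [Field k] [Field κ] [Algebra k κ] (τ : κ), Transcendental k τ →
    FiniteDimensional k⟮τ⟯ κ → Algebra.IsSeparable k⟮τ⟯ κ →
    ∀ x : κ, (∀ P : Place k κ, τ ∈ P.toValuationSubring → x ∈ P.toValuationSubring) → IsInt k τ x

/-- **NSA-8** (dictionary on `κ`).  [`f ∈ Lbar(m T)`, `f ≠ 0`.  `P` with `τ ∈ P`: `ord τ ≥ 0`, `T P = 0`, `ord f ≥ 0`.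
`P` with `τ⁻¹ ∈ P`: `ord τ ≤ 0`, `T P = - ord τ`, `ord (f τ⁻ᵐ) = ord f - m ord τ ≥ 0`.
`mem_riemannRochSpace_iff`, `Place.ord_mul`, `Place.ord_inv`, `Place.ord_pow`, `S24.mem_of_ord_nonneg`,
`S24.ord_nonneg_of_mem`.] -/
def Stmt_KapDict : Prop :=
  ∀ (k κ : Type) [Field k] [Field κ] [Algebra k κ] (τ : κ), τ ≠ 0 →
    (∀ x : κ, (∀ P : Place k κ, τ ∈ P.toValuationSubring → x ∈ P.toValuationSubring) → IsInt k τ x) →
    (∀ x : κ, (∀ P : Place k κ, τ⁻¹ ∈ P.toValuationSubring → x ∈ P.toValuationSubring) →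
      IsInt k τ⁻¹ x) →
    ∀ T : Divisor k κ, (∀ P : Place k κ, T P = max 0 (-(P.ord τ))) →
    ∀ m : ℕ, riemannRochSpace (m • T) ≤ LInt k τ m

/-- **NS-ARITH : the output.** -/
def Stmt_NSArith : Prop :=
  ∀ (K F k Fb : Type) [Field K] [Field F] [Algebra K F] [Field k] [Field Fb] [Algebra k Fb]
    [IsAlgClosed K] [CharZero K] (D : RedData K F k Fb) (t : F),
    Chart D t → Chart D t⁻¹ → Branch D t → Branch D t⁻¹ →
    ∀ T : Divisor k Fb, (∀ P : Place k Fb, T P = max 0 (-(P.ord (D.rd t)))) →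
    ∃ m₀ : ℕ, ∀ m : ℕ, m₀ ≤ m → Module.Finite k (riemannRochSpace (m • T)) ∧
      (Module.finrank k (riemannRochSpace (m • T)) : ℤ) ≤
        m * Module.finrank K⟮t⟯ F + 1 - genusFF K F

end Fermat.Agent.FF19.NSA

end
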