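/-
FF19 / NSA, task NSA-2 (helper67): Čech `H¹(O(m)) = 0` over `A`.
-/
import Fermat.Agent.FF19.NSA.Interface

set_option autoImplicit false

noncomputable section

namespace Fermat.Agent.FF19.NSA

open Polynomial IntermediateField AlgebraicCurve
open Fermat.Agent.INJ

/-- `t` is integral over `K[t]`. -/
theorem Cech_isInt_t (K : Type) {F : Type} [Field K] [Field F] [Algebra K F] (t : F) :
    IsInt K t t := by
  show IsIntegral (Algebra.adjoin K {t})
    (algebraMap (Algebra.adjoin K {t}) F ⟨t, Algebra.subset_adjoin (Set.mem_singleton t)⟩)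
  exact isIntegral_algebraMap

/-- splitting `t⁻ᵃ q(t) b`, `q ∈ A[t]`, into non-negative and negative powers of `t`. -/
theorem Cech_split {K F k Fb : Type} [Field K] [Field F] [Algebra K F] [Field k] [Field Fb]
    [Algebra k Fb] (D : RedData K F k Fb) (t : F) (ht0 : t ≠ 0) (ht : t ∈ D.O) (hti : t⁻¹ ∈ D.O)
    (a m : ℕ) (b : F) (hbO : b ∈ D.O) (hb : IsInt K t b)
    (hb' : ∀ r' : ℕ, m ≤ r' → IsInt K t⁻¹ (b * t⁻¹ ^ r')) (Q : (D.A)[X]) :
    ∃ c₁ c₂ : F, c₁ ∈ D.O ∧ IsInt K t c₁ ∧ c₂ ∈ D.O ∧ IsInt K t⁻¹ c₂ ∧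
      aeval t (Q.map D.A.subtype) * b = t ^ a * (c₁ + t ^ m * c₂) := by
  induction Q using Polynomial.induction_on' with
  | add P Q hP hQ =>
    obtain ⟨c₁, c₂, h1, h2, h3, h4, h5⟩ := hP
    obtain ⟨d₁, d₂, g1, g2, g3, g4, g5⟩ := hQ
    refine ⟨c₁ + d₁, c₂ + d₂, add_mem h1 g1, IsIntegral.add h2 g2, add_mem h3 g3,
      IsIntegral.add h4 g4, ?_⟩
    rw [Polynomial.map_add, map_add, add_mul, h5, g5]
    ring
  | monomial j q =>
    have hq : algebraMap K F (q : K) ∈ D.O := (D.mem_iff _).2 q.2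
    have hsub : D.A.subtype q = (q : K) := rfl
    rw [Polynomial.map_monomial, aeval_monomial, hsub]
    by_cases hja : a ≤ j
    · refine ⟨algebraMap K F q * t ^ (j - a) * b, 0, ?_, ?_, zero_mem _, isIntegral_zero, ?_⟩
      · exact mul_mem (mul_mem hq (pow_mem ht _)) hbO
      · exact IsIntegral.mul (IsIntegral.mul (isInt_const K t q) (IsIntegral.pow (Cech_isInt_t K t) _))
          hb
      · have h1 : t ^ j = t ^ a * t ^ (j - a) := by
          rw [← pow_add, Nat.add_sub_cancel' hja]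
        rw [h1]
        ring
    · have hja' : j < a := not_le.1 hja
      refine ⟨0, algebraMap K F q * (b * t⁻¹ ^ (a - j + m)), zero_mem _, isIntegral_zero, ?_, ?_, ?_⟩
      · exact mul_mem hq (mul_mem hbO (pow_mem hti _))
      · exact IsIntegral.mul (isInt_const K t⁻¹ q) (hb' _ (Nat.le_add_left _ _))
      · have h1 : t ^ a * t ^ m = t ^ j * t ^ (a - j + m) := by
          rw [← pow_add, ← pow_add]
          congr 1
          omega
        have h2 : t ^ (a - j + m) * t⁻¹ ^ (a - j + m) = 1 := by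
          rw [← mul_pow, mul_inv_cancel₀ ht0, one_pow]
        calc algebraMap K F q * t ^ j * b
            = algebraMap K F q * b * (t ^ j * (t ^ (a - j + m) * t⁻¹ ^ (a - j + m))) := by
              rw [h2]; ring
          _ = algebraMap K F q * b * ((t ^ a * t ^ m) * t⁻¹ ^ (a - j + m)) := by
              rw [h1]; ring
          _ = _ := by ring

theorem stmt_Cech (h : Stmt_PoleBound) : Stmt_Cech := by
  intro K F k Fb _ _ _ _ _ _ _ _ D t hC
  obtain ⟨b, hb, hspan, hind⟩ := all_BBasis K F k Fb D t hC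
  have hrd : D.rd t ≠ 0 := by
    intro h0
    apply hC.trans
    rw [h0]
    exact isAlgebraic_zero
  have ht0 : t ≠ 0 := by
    rintro rfl
    exact hrd RedData.rd_zero
  have hti : t⁻¹ ∈ D.O := RedData.inv_mem_of_rd_ne_zero hrd
  choose r hr using fun i => h K F t (b i) ht0 (hb i).2
  refine ⟨Finset.univ.sup r, fun m hm c hc a hint => ?_⟩
  obtain ⟨-, hG2, -, -, -⟩ := stmt_Gauss K F k Fb D t hC.t_mem hC.trans
  obtain ⟨-, hO⟩ := all_Ortho K F k Fb D t hC.t_mem hC.trans _ b (fun i => (hb i).1) hind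
  obtain ⟨p, hp⟩ := (Submodule.mem_span_range_iff_exists_fun _).1 (hspan _ hint)
  -- the coefficients lie in `O`
  have hmem : ∀ i, ((p i : Algebra.adjoin K {t}) : F) ∈ K⟮t⟯ := fun i =>
    IntermediateField.algebra_adjoin_le_adjoin K {t} (p i).2
  have hsum : (∑ i, ((⟨(p i : F), hmem i⟩ : K⟮t⟯) : F) * b i) = t ^ a * c := by
    rw [← hp]
    rfl
  have hpO : ∀ i, ((p i : Algebra.adjoin K {t}) : F) ∈ D.O := fun i =>
    hO (fun i => ⟨(p i : F), hmem i⟩) (by rw [hsum]; exact mul_mem (pow_mem hC.t_mem _) hc) i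
  have hpoly : ∀ i, ∃ Q : (D.A)[X], aeval t (Q.map D.A.subtype) = ((p i : Algebra.adjoin K {t}) : F) := by
    intro i
    have h1 : ((p i : Algebra.adjoin K {t}) : F) ∈ (Polynomial.aeval (R := K) t).range := by
      rw [← Algebra.adjoin_singleton_eq_range_aeval]
      exact (p i).2
    obtain ⟨P, hP'⟩ := h1
    have hP : aeval t P = ((p i : Algebra.adjoin K {t}) : F) := hP'
    obtain ⟨Q, hQ⟩ := hG2 P (by rw [hP]; exact hpO i)
    exact ⟨Q, by rw [hQ]; exact hP⟩
  choose Q hQ using hpoly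
  choose c₁ c₂ h1 h2 h3 h4 h5 using fun i =>
    Cech_split D t ht0 hC.t_mem hti a m (b i) (hb i).1 (hb i).2
      (fun r' hr' => hr i r' (le_trans (le_trans (Finset.le_sup (Finset.mem_univ i)) hm) hr')) (Q i)
  refine ⟨∑ i, c₁ i, ∑ i, c₂ i, sum_mem fun i _ => h1 i, IsIntegral.sum _ fun i _ => h2 i,
    sum_mem fun i _ => h3 i, IsIntegral.sum _ fun i _ => h4 i, ?_⟩
  have hfin : t ^ a * c = t ^ a * (∑ i, c₁ i + t ^ m * ∑ i, c₂ i) := by
    rw [← hsum, Finset.mul_sum, ← Finset.sum_add_distrib, Finset.mul_sum]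
    refine Finset.sum_congr rfl fun i _ => ?_
    rw [← h5 i, hQ i]
  exact mul_left_cancel₀ (pow_ne_zero a ht0) hfin

end Fermat.Agent.FF19.NSA

end
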