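import Fermat.Agent.FF19.NSA.Interface

/-!
# FF19 / NSA : NSA-5 (`Stmt_DimLe`)
-/

set_option autoImplicit false

noncomputable section

namespace Fermat.Agent.FF19.NSA

open Polynomial IntermediateField AlgebraicCurve
open Fermat.Agent.INJ

/-- **NSA-5**. -/
theorem stmt_DimLe (h : Stmt_Indep) : Stmt_DimLe := by
  intro K F k Fb _ _ _ _ _ _ D V Vb hfin hlift
  have key : ∀ s : Finset Vb, LinearIndependent k (fun i : s => (i : Vb)) →
      s.card ≤ Module.finrank K V := by
    intro s hs
    choose y hyV hyO hyrd using fun i : s => hlift ((i : Vb) : Fb) (i : Vb).2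
    have h1 : LinearIndependent k (fun i => D.rd (y i)) := by
      have e : (fun i => D.rd (y i)) = Vb.subtype ∘ (fun i : s => (i : Vb)) := funext hyrd
      rw [e]
      exact hs.map' Vb.subtype (Submodule.ker_subtype _)
    have h2 := h K F k Fb D s y hyO h1
    have h3 : LinearIndependent K (fun i => (⟨y i, hyV i⟩ : V)) :=
      LinearIndependent.of_comp V.subtype h2
    have h4 := h3.fintype_card_le_finrank
    simpa using h4
  have hr : Module.rank k Vb ≤ (Module.finrank K V : ℕ) := rank_le key
  refine ⟨?_, Module.finrank_le_of_rank_le hr⟩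
  rw [← Module.rank_lt_aleph0_iff]
  exact hr.trans_lt (Cardinal.natCast_lt_aleph0)

end Fermat.Agent.FF19.NSA

end
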