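import Fermat.Agent.FF19.NSA.Interface
import Fermat.Agent.S27.R0
import Fermat.Agent.S27.RA
import Fermat.Agent.S27.RB

/-!
# FF19 / NSA-6 : `dim_K LInt K t m ≤ m n + 1 - g` for `m` large (`Stmt_Generic`)
-/

set_option autoImplicit false

noncomputable section

namespace Fermat.Agent.FF19.NSA

open Polynomial IntermediateField AlgebraicCurve
open Fermat.Agent.INJ

theorem stmt_Generic : Stmt_Generic := by
  intro K F _ _ _ _ _ t ht hfin
  have hFF : S27.IsFF K F := ⟨t, ht, hfin⟩
  have hR0 : S27.Stmt_R0.{0, 0} := S27.r0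
  have hRA : S27.Stmt_RA.{0, 0} := S27.ra hR0
  have hRD : S27.Stmt_RD.{0, 0} := S27.rd hR0 hRA (S27.rb hR0) (S27.rc hR0 hRA)
  obtain ⟨hP, hdeg, -, -, -⟩ := hR0 K F hFF
  obtain ⟨hLfin, -, -, -⟩ := hRA K F hFF
  obtain ⟨-, hRR, ⟨c, hc⟩, -⟩ := hRD K F hFF
  obtain ⟨B, hB0, hBt, hBdeg⟩ := S27.RC.exists_poleDivisor hP hdeg t ht
  have ht0 : t ≠ 0 := fun h => ht (h ▸ isAlgebraic_zero)
  have hti : Transcendental K t⁻¹ := S24.placeCases_transcendental_inv ht
  have hfini : FiniteDimensional K⟮t⁻¹⟯ F := S24.placeCases_finiteDimensional_adjoin_inv t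
  have pf := MR.Node.placeFacts K F t ht hfin
  have pf' := MR.Node.placeFacts K F t⁻¹ hti hfini
  have hle : ∀ m : ℕ, LInt K t m ≤ riemannRochSpace (m • B) := by
    intro m y hy
    obtain ⟨hy1, hy2⟩ := mem_LInt.1 hy
    rw [mem_riemannRochSpace_iff]
    intro v
    rcases eq_or_ne y 0 with rfl | hy0
    · left; rfl
    right
    have hmB : (m • B) v = m * B v := by simp
    rw [hmB]
    have hm0 : (0 : ℤ) ≤ m := Int.natCast_nonneg m
    by_cases htv : t ∈ v.toValuationSubring
    · have h1 := S24.ord_nonneg_of_mem v (pf.reg y hy1 v htv)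
      have h2 := mul_nonneg hm0 (hB0 v)
      omega
    · have htv' : t⁻¹ ∈ v.toValuationSubring :=
        (v.toValuationSubring.mem_or_inv_mem t).resolve_left htv
      have h1 := S24.ord_nonneg_of_mem v (pf'.reg _ hy2 v htv')
      rw [v.ord_mul hy0 (pow_ne_zero _ (inv_ne_zero ht0)), ← zpow_natCast, v.ord_zpow,
        v.ord_inv] at h1
      have h2 := mul_le_mul_of_nonneg_left (hBt v) hm0
      linarith
  have hfinL : ∀ m : ℕ, Module.Finite K (LInt K t m) := fun m => by
    have := hLfin (m • B)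
    exact Submodule.finiteDimensional_of_le (hle m)
  refine ⟨hfinL, c.toNat, fun m hm => ?_⟩
  have hn : 0 < Module.finrank K⟮t⟯ F := Module.finrank_pos
  have hdegm : Divisor.degree (m • B) = m * (Module.finrank K⟮t⟯ F : ℤ) := by
    rw [map_nsmul, hBdeg, nsmul_eq_mul]
  have hcm : c ≤ Divisor.degree (m • B) := by
    rw [hdegm]
    have h1 : c ≤ (m : ℤ) := by omega
    have h2 : (m : ℤ) * 1 ≤ m * (Module.finrank K⟮t⟯ F : ℤ) :=
      mul_le_mul_of_nonneg_left (by exact_mod_cast hn) (Int.natCast_nonneg m)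
    linarith
  have hsub := hc (m • B) hcm
  have hH0 : Module.finrank K (H1 (m • B)) = 0 := Module.finrank_zero_of_subsingleton
  have h3 := hRR (m • B)
  rw [hH0, hdegm] at h3
  have := hLfin (m • B)
  have h4 : Module.finrank K (LInt K t m) ≤ Module.finrank K (riemannRochSpace (m • B)) :=
    Submodule.finrank_mono (hle m)
  have h5 : (Module.finrank K (LInt K t m) : ℤ) ≤ Module.finrank K (riemannRochSpace (m • B)) := by
    exact_mod_cast h4
  push_cast at h3
  linarith

end Fermat.Agent.FF19.NSA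

end
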