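/-
FF19 / NSA, task NSA-4 (helper67, shadow): lifts of `k`-independent elements are `K`-independent.
-/
import Fermat.Agent.FF19.NSA.Interface

set_option autoImplicit false

noncomputable section

namespace Fermat.Agent.FF19.NSA

open Polynomial IntermediateField AlgebraicCurve
open Fermat.Agent.INJ

theorem stmt_Indep : Stmt_Indep := by
  intro K F k Fb _ _ _ _ _ _ D ι _ y hy hind
  rw [Fintype.linearIndependent_iff] at hind ⊢
  intro g hg
  by_contra hne
  push Not at hne
  obtain ⟨i₀, hi₀⟩ := hne
  obtain ⟨j, -, hj⟩ := Finset.exists_max_image Finset.univ (fun i => D.A.valuation (g i))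
    ⟨i₀, Finset.mem_univ i₀⟩
  have hgj : g j ≠ 0 := by
    intro h0
    have h1 := hj i₀ (Finset.mem_univ i₀)
    rw [h0, map_zero] at h1
    exact hi₀ ((map_eq_zero _).1 (le_antisymm h1 zero_le))
  have ha : ∀ i, g i / g j ∈ D.A := by
    intro i
    rw [← ValuationSubring.valuation_le_one_iff, map_div₀]
    exact div_le_one_of_le₀ (hj i (Finset.mem_univ i)) zero_le
  have hsum : ∑ i, algebraMap K F (g i / g j) * y i = 0 := by
    have h1 : ∑ i, algebraMap K F (g i / g j) * y i = algebraMap K F (g j)⁻¹ * ∑ i, g i • y i := by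
      rw [Finset.mul_sum]
      refine Finset.sum_congr rfl fun i _ => ?_
      rw [Algebra.smul_def, div_eq_mul_inv, map_mul]
      ring
    rw [h1, hg, mul_zero]
  have hred : ∑ i, D.ra (g i / g j) • D.rd (y i) = 0 := by
    have h1 := congrArg D.rd hsum
    rw [RedData.rd_sum _ _ fun i _ => mul_mem (RedData.algebraMap_mem (ha i)) (hy i),
      RedData.rd_zero] at h1
    rw [← h1]
    refine Finset.sum_congr rfl fun i _ => ?_
    rw [RedData.rd_mul (RedData.algebraMap_mem (ha i)) (hy i), RedData.rd_algebraMap (ha i),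
      Algebra.smul_def]
  have h2 := hind _ hred j
  rw [div_self hgj, RedData.ra_of_mem D.A.one_mem] at h2
  have h3 : D.rA ⟨1, D.A.one_mem⟩ = 1 := map_one D.rA
  rw [h3] at h2
  exact one_ne_zero h2

end Fermat.Agent.FF19.NSA

end
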