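import Fermat.Agent.FF19.NSA.Interface

/-!
# FF19 / NSA : NSA-8, the dictionary `Lbar(m T) ≤ LInt k τ m` (`Stmt_KapDict`)
-/

set_option autoImplicit false

noncomputable section

namespace Fermat.Agent.FF19.NSA

open Polynomial IntermediateField AlgebraicCurve
open Fermat.Agent.INJ

/-- **NSA-8.** -/
theorem stmt_KapDict : Stmt_KapDict := by
  intro k κ _ _ _ τ hτ h1 h2 T hT m f hf
  rw [mem_riemannRochSpace_iff] at hf
  rw [mem_LInt]
  rcases eq_or_ne f 0 with rfl | hf0
  · exact ⟨isIntegral_zero, by rw [zero_mul]; exact isIntegral_zero⟩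
  have hfP : ∀ P : Place k κ, -((m : ℤ) * T P) ≤ P.ord f := by
    intro P
    rcases hf P with h | h
    · exact absurd h hf0
    · have h3 : (m • T) P = (m : ℤ) * T P := by
        simp [Finsupp.smul_apply]
      rwa [h3] at h
  refine ⟨h1 f ?_, h2 _ ?_⟩
  · intro P hP
    apply Fermat.Agent.S24.mem_of_ord_nonneg P hf0
    have h3 := Fermat.Agent.S24.ord_nonneg_of_mem P hP
    have h4 : T P = 0 := by
      rw [hT P]
      exact max_eq_left (by omega)
    have h5 := hfP P
    rw [h4, mul_zero, neg_zero] at h5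
    exact h5
  · intro P hP
    have hτi : τ⁻¹ ≠ 0 := inv_ne_zero hτ
    apply Fermat.Agent.S24.mem_of_ord_nonneg P (mul_ne_zero hf0 (pow_ne_zero _ hτi))
    have h3 := Fermat.Agent.S24.ord_nonneg_of_mem P hP
    rw [Place.ord_inv] at h3
    have h4 : T P = -(P.ord τ) := by
      rw [hT P]
      exact max_eq_right h3
    have h5 := hfP P
    rw [h4] at h5
    have h6 : P.ord (τ⁻¹ ^ m) = (m : ℤ) * (-(P.ord τ)) := by
      rw [← zpow_natCast, Place.ord_zpow, Place.ord_inv]
    rw [Place.ord_mul P hf0 (pow_ne_zero _ hτi), h6]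
    linarith

end Fermat.Agent.FF19.NSA

end
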