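import Fermat.Agent.FF19.NSA.Interface
import Fermat.Agent.S24.FundId

/-!
# FF19 / NSA, NSA-7 : regular at all places where `τ` is regular `⟹` integral over `k[τ]`
(any characteristic, `κ / k(τ)` finite separable)
-/

set_option autoImplicit false

namespace Fermat.Agent.FF19.NSA

open Polynomial IntermediateField AlgebraicCurve IsDedekindDomain
open Fermat.Agent.INJ
open Fermat.Agent.S24 (intRing xPoly polyRing)
open scoped IntermediateField.algebraAdjoinAdjoin

theorem KapInt_isDedekindDomain {k κ : Type} [Field k] [Field κ] [Algebra k κ] {τ : κ}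
    (hτ : Transcendental k τ) [FiniteDimensional k⟮τ⟯ κ] [Algebra.IsSeparable k⟮τ⟯ κ] :
    IsDedekindDomain (intRing k τ) := by
  have := S24.polyRing_isPrincipalIdealRing hτ
  exact integralClosure.isDedekindDomain (polyRing k τ) k⟮τ⟯ κ

theorem stmt_KapInt : Stmt_KapInt := by
  intro k κ _ _ _ τ hτ hfin hsep x hx
  have := KapInt_isDedekindDomain hτ
  have := S24.intRing_isFractionRing (K := k) τ
  have h : ∀ q : HeightOneSpectrum (intRing k τ), q.valuation κ x ≤ 1 := by
    intro q
    have hP := Place.ofHeightOneSpectrum_toValuationSubring (K := k) (F := κ) q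
    have ht' : τ ∈ (Place.ofHeightOneSpectrum (K := k) (F := κ) q).toValuationSubring := by
      rw [hP, Valuation.mem_valuationSubring_iff]
      exact q.valuation_le_one
        (⟨τ, isIntegral_algebraMap (x := xPoly k τ)⟩ : intRing k τ)
    have h2 := hx _ ht'
    rwa [hP, Valuation.mem_valuationSubring_iff] at h2
  obtain ⟨b, hb⟩ := HeightOneSpectrum.mem_integers_of_valuation_le_one κ x h
  rw [← hb]
  exact b.2

end Fermat.Agent.FF19.NSA
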