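import Fermat.Agent.FF19.NSA.Interface

/-!
# FF19 / NSA : NSA-3 (helper99).  Sections of `Lbar(m ∞)` lift.
-/

set_option autoImplicit false

noncomputable section

namespace Fermat.Agent.FF19.NSA

open Polynomial IntermediateField AlgebraicCurve
open Fermat.Agent.INJ

theorem Lift_isInt_self (K : Type) {F : Type} [Field K] [Field F] [Algebra K F] (t : F) :
    IsInt K t t := by
  have h : t = algebraMap (Algebra.adjoin K {t}) F
      ⟨t, Algebra.subset_adjoin (Set.mem_singleton t)⟩ := rfl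
  rw [IsInt]
  conv_rhs => rw [h]
  exact isIntegral_algebraMap

theorem Lift_isInt_pow (K : Type) {F : Type} [Field K] [Field F] [Algebra K F] (t : F) (n : ℕ) :
    IsInt K t (t ^ n) := IsIntegral.pow (Lift_isInt_self K t) n

/-- **NSA-3**. -/
theorem stmt_Lift (hP : Stmt_PoleBound) (hC : Stmt_Cech) : Stmt_Lift := by
  intro K F k Fb _ _ _ _ _ _ _ _ D t hc hc' hb hb'
  obtain ⟨m₀, hm₀⟩ := hC K F k Fb D t hc
  refine ⟨m₀, fun m hm yb hyb => ?_⟩
  obtain ⟨hy1, hy2⟩ := hyb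
  have htb : D.rd t ≠ 0 := by
    intro h
    apply hc.trans
    rw [h]
    exact isAlgebraic_zero
  have ht0 : t ≠ 0 := by
    rintro rfl
    exact htb RedData.rd_zero
  have htO : t ∈ D.O := hc.t_mem
  have htO' : t⁻¹ ∈ D.O := hc'.t_mem
  have hrdinv : D.rd t⁻¹ = (D.rd t)⁻¹ := RedData.rd_inv htb
  obtain ⟨b, hbO, hbI, hbr⟩ := all_Normal K F k Fb D t hc hb yb hy1
  obtain ⟨b', hbO', hbI', hbr'⟩ := all_Normal K F k Fb D t⁻¹ hc' hb' (yb * (D.rd t)⁻¹ ^ m)
    (by rw [hrdinv]; exact hy2)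
  have htm : t ^ m * t⁻¹ ^ m = 1 := by
    rw [← mul_pow, mul_inv_cancel₀ ht0, one_pow]
  have htmO : t ^ m ∈ D.O := pow_mem htO m
  by_cases he : b - t ^ m * b' = 0
  · refine ⟨b, ⟨hbI, ?_⟩, hbO, hbr⟩
    have : b * t⁻¹ ^ m = b' := by
      rw [sub_eq_zero.1 he, mul_comm (t ^ m) b', mul_assoc, htm, mul_one]
    rw [this]
    exact hbI'
  · set e : F := b - t ^ m * b' with hedef
    have heO : e ∈ D.O := sub_mem hbO (mul_mem htmO hbO')
    have her : D.rd e = 0 := by
      rw [hedef, RedData.rd_sub hbO (mul_mem htmO hbO'), RedData.rd_mul htmO hbO',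
        RedData.rd_pow htO, hbr, hbr']
      have h1 : D.rd t ^ m * (D.rd t)⁻¹ ^ m = 1 := by
        rw [← mul_pow, mul_inv_cancel₀ htb, one_pow]
      rw [mul_comm yb, ← mul_assoc, h1, one_mul, sub_self]
    obtain ⟨a, ha0, hc0O, hc0O'⟩ := D.unram e he
    set c₀ : F := e * algebraMap K F a with hc0
    have haF : algebraMap K F a ≠ 0 := by
      rw [Ne, map_eq_zero_iff _ (algebraMap K F).injective]
      exact ha0
    have hc00 : c₀ ≠ 0 := mul_ne_zero he haF
    -- `π = a⁻¹`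
    have hπ : algebraMap K F a⁻¹ = e * c₀⁻¹ := by
      rw [hc0, map_inv₀]
      field_simp
    have hπO : algebraMap K F a⁻¹ ∈ D.O := by
      rw [hπ]
      exact mul_mem heO hc0O'
    have hπr : D.rd (algebraMap K F a⁻¹) = 0 := by
      rw [hπ, RedData.rd_mul heO hc0O', her, zero_mul]
    have heq : e = algebraMap K F a⁻¹ * c₀ := by
      rw [hπ, mul_assoc, inv_mul_cancel₀ hc00, mul_one]
    -- integrality of `t ^ r * c₀`
    obtain ⟨r, hr⟩ := hP K F t⁻¹ b' (inv_ne_zero ht0) hbI'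
    have hr' : IsInt K t (b' * t ^ r) := by
      have := hr r le_rfl
      rwa [inv_inv] at this
    have hint : IsInt K t (t ^ r * c₀) := by
      have h1 : t ^ r * c₀ = algebraMap K F a * (t ^ r * b - t ^ m * (b' * t ^ r)) := by
        rw [hc0, hedef]
        ring
      rw [h1]
      exact IsIntegral.mul (isInt_const K t a)
        (IsIntegral.sub (IsIntegral.mul (Lift_isInt_pow K t r) hbI)
          (IsIntegral.mul (Lift_isInt_pow K t m) hr'))
    obtain ⟨c₁, c₂, hc1O, hc1I, hc2O, hc2I, hsplit⟩ := hm₀ m hm c₀ hc0O r hint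
    refine ⟨b - algebraMap K F a⁻¹ * c₁, ⟨?_, ?_⟩, ?_, ?_⟩
    · exact IsIntegral.sub hbI (IsIntegral.mul (isInt_const K t a⁻¹) hc1I)
    · have h2 : (b - algebraMap K F a⁻¹ * c₁) * t⁻¹ ^ m = b' + algebraMap K F a⁻¹ * c₂ := by
        have h3 : b = t ^ m * b' + algebraMap K F a⁻¹ * (c₁ + t ^ m * c₂) := by
          rw [← hsplit, ← heq, hedef]
          ring
        have h4 : b - algebraMap K F a⁻¹ * c₁ = t ^ m * (b' + algebraMap K F a⁻¹ * c₂) := by
          rw [h3]
          ring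
        rw [h4, mul_comm (t ^ m), mul_assoc, htm, mul_one]
      rw [h2]
      exact IsIntegral.add hbI' (IsIntegral.mul (isInt_const K t⁻¹ a⁻¹) hc2I)
    · exact sub_mem hbO (mul_mem hπO hc1O)
    · rw [RedData.rd_sub hbO (mul_mem hπO hc1O), RedData.rd_mul hπO hc1O, hπr, zero_mul, sub_zero,
        hbr]

end Fermat.Agent.FF19.NSA

end
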