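import Fermat.Agent.FF19.NSA.Interface

/-!
# FF19 / NSA, task NSA-1 : `x` integral over `K[t]` ⟹ `x t⁻ʳ` integral over `K[t⁻¹]` for `r` large (`Stmt_PoleBound`)

`scaleRoots` of the integral equation (over `F`) by `t⁻ʳ'` has its coefficients in `K[t⁻¹]`; lift it.
-/

set_option autoImplicit false

noncomputable section

namespace Fermat.Agent.FF19.NSA

open Polynomial IntermediateField AlgebraicCurve
open Fermat.Agent.INJ

theorem PoleBound_mem {K F : Type} [Field K] [Field F] [Algebra K F] {t : F} (ht : t ≠ 0) (p : K[X])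
    {N : ℕ} (hN : p.natDegree ≤ N) : aeval t p * t⁻¹ ^ N ∈ Algebra.adjoin K {t⁻¹} := by
  rw [Polynomial.aeval_eq_sum_range, Finset.sum_mul]
  refine Subalgebra.sum_mem _ fun i hi => ?_
  have hi' : i ≤ N := (Nat.lt_succ_iff.1 (Finset.mem_range.1 hi)).trans hN
  obtain ⟨d, rfl⟩ := Nat.exists_eq_add_of_le hi'
  have h : t ^ i * t⁻¹ ^ (i + d) = t⁻¹ ^ d := by
    rw [pow_add, ← mul_assoc, ← mul_pow, mul_inv_cancel₀ ht, one_pow, one_mul]
  rw [smul_mul_assoc, h]
  exact Subalgebra.smul_mem _ (Subalgebra.pow_mem _ (Algebra.self_mem_adjoin_singleton K t⁻¹) _) _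

/-- **NSA-1** -/
theorem stmt_PoleBound : Stmt_PoleBound := by
  intro K F _ _ _ t x ht hx
  obtain ⟨P, hPm, hPx⟩ := hx
  have hco : ∀ i, ∃ p : K[X], aeval t p = ((P.coeff i : Algebra.adjoin K {t}) : F) := by
    have h : ∀ a : F, a ∈ Algebra.adjoin K {t} → ∃ p : K[X], aeval t p = a := by
      intro a ha
      rw [Algebra.adjoin_singleton_eq_range_aeval] at ha
      exact ha
    exact fun i => h _ (P.coeff i).2
  choose p hp using hco
  obtain ⟨n, hn⟩ : ∃ n, n = P.natDegree := ⟨_, rfl⟩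
  refine ⟨(Finset.range n).sup fun i => (p i).natDegree, fun r' hr' => ?_⟩
  obtain ⟨PF, hPF⟩ : ∃ PF : F[X], PF = P.map (algebraMap (Algebra.adjoin K {t}) F) := ⟨_, rfl⟩
  have hPFm : PF.Monic := by rw [hPF]; exact hPm.map _
  have hPFdeg : PF.natDegree = n := by rw [hPF, hn]; exact hPm.natDegree_map _
  have hPFx : eval₂ (RingHom.id F) x PF = 0 := by
    rw [hPF, eval₂_map, RingHom.id_comp]
    exact hPx
  obtain ⟨s, hs⟩ : ∃ s : F, s = t⁻¹ ^ r' := ⟨_, rfl⟩
  have hroot : eval₂ (RingHom.id F) (RingHom.id F s * x) (scaleRoots PF s) = 0 :=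
    scaleRoots_eval₂_eq_zero (RingHom.id F) hPFx
  have hlift : scaleRoots PF s ∈ lifts (algebraMap (Algebra.adjoin K {t⁻¹}) F) := by
    rw [lifts_iff_coeff_lifts]
    intro i
    rw [coeff_scaleRoots, hPFdeg]
    rcases lt_trichotomy i n with hi | hi | hi
    · have h1 : PF.coeff i = aeval t (p i) := by
        rw [hPF, coeff_map, hp]
        rfl
      rw [h1, hs, ← pow_mul]
      have h2 : (p i).natDegree ≤ r' * (n - i) := by
        have h3 : (p i).natDegree ≤ (Finset.range n).sup fun i => (p i).natDegree :=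
          Finset.le_sup (f := fun i => (p i).natDegree) (Finset.mem_range.2 hi)
        have h4 : r' * 1 ≤ r' * (n - i) := Nat.mul_le_mul_left _ (by omega)
        omega
      exact ⟨⟨_, PoleBound_mem ht (p i) h2⟩, rfl⟩
    · subst hi
      rw [← hPFdeg, hPFm.coeff_natDegree, Nat.sub_self, pow_zero, mul_one]
      exact ⟨1, map_one _⟩
    · rw [coeff_eq_zero_of_natDegree_lt (by rw [hPFdeg]; exact hi), zero_mul]
      exact ⟨0, map_zero _⟩
  obtain ⟨q, hq, -, hqm⟩ := lifts_and_natDegree_eq_and_monic hlift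
    ((monic_scaleRoots_iff s).2 hPFm)
  refine ⟨q, hqm, ?_⟩
  rw [← eval_map, hq, ← hs, mul_comm x]
  rw [eval₂_id] at hroot
  exact hroot

end Fermat.Agent.FF19.NSA

end
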