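import Fermat.Agent.FF19.NSA.Asm
import Fermat.Agent.FF19.NSA.UB
import Fermat.Agent.FF19.NSA.PoleBound
import Fermat.Agent.FF19.NSA.Cech
import Fermat.Agent.FF19.NSA.Lift
import Fermat.Agent.FF19.NSA.Indep
import Fermat.Agent.FF19.NSA.DimLe
import Fermat.Agent.FF19.NSA.Generic
import Fermat.Agent.FF19.NSA.KapInt
import Fermat.Agent.FF19.NSA.KapDict

/-!
# FF19 / NSA : block NS-ARITH, unconditional (helper28)

`all_UB` : "the genus does not drop", in the shape `NS.UB` consumed by NS-ABS / `Kap.Stmt_NSOut`.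
`all_NSArith` : the same in the language of `riemannRochSpace`.
-/

set_option autoImplicit false

namespace Fermat.Agent.FF19.NSA

theorem all_Lift : Stmt_Lift := stmt_Lift stmt_PoleBound (stmt_Cech stmt_PoleBound)

theorem all_DimLe : Stmt_DimLe := stmt_DimLe stmt_Indep

/-- **NS-ARITH**, in the shape `NS.UB`. -/
theorem all_UB : Stmt_UB := ub_of all_Lift all_DimLe stmt_Generic

/-- **NS-ARITH**, in the language of `riemannRochSpace`. -/
theorem all_NSArith : Stmt_NSArith :=
  nsArith_of all_Lift all_DimLe stmt_Generic stmt_KapInt stmt_KapDict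

end Fermat.Agent.FF19.NSA
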